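import Fermat.Agent.S14.Defs

/-!
# S14 Endgame: automorphism lemmas L8, L9 and the numerical unit L10
-/

set_option autoImplicit false

namespace Fermat.Agent.S14.Endgame.Lemmas

open NumberField
open scoped Pointwise
variable {p : ℕ} {K L : Type} [Field K] [NumberField K] [Field L] [NumberField L] [Algebra K L]

/-- L8: automorphisms of the cyclotomic field. -/
theorem exists_aut_pow [Fact p.Prime] [IsCyclotomicExtension {p} ℚ K] (ζ : K)
    (hζ : IsPrimitiveRoot ζ p) :
    ∃ s : ℕ → (K ≃ₐ[ℚ] K), ∀ a : ℕ, 0 < a → a < p → s a ζ = ζ ^ a := by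
  classical
  have hp : p.Prime := Fact.out
  have : NeZero p := ⟨hp.ne_zero⟩
  refine ⟨fun a => if h : a.Coprime p then
    (IsCyclotomicExtension.Rat.galEquivZMod p K).symm (ZMod.unitOfCoprime a h) else 1, ?_⟩
  intro a ha0 hap
  have hcop : a.Coprime p :=
    (Nat.coprime_comm.mp ((Nat.Prime.coprime_iff_not_dvd hp).mpr
      (Nat.not_dvd_of_pos_of_lt ha0 hap)))
  simp only [dif_pos hcop]
  rw [IsCyclotomicExtension.Rat.galEquivZMod_apply_of_pow_eq p K _ hζ.pow_eq_one,
    MulEquiv.apply_symm_apply, ZMod.coe_unitOfCoprime, ZMod.val_natCast, Nat.mod_eq_of_lt hap]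

/-- L9: extension of automorphisms from `K` to `L`. -/
theorem exists_extension [IsGalois ℚ L] (s : K ≃ₐ[ℚ] K) :
    ∃ g : L ≃ₐ[ℚ] L, ∀ x : K, g (algebraMap K L x) = algebraMap K L (s x) := by
  have : IsScalarTower ℚ K L := IsScalarTower.of_algebraMap_eq (fun x => by
    exact (RingHom.congr_fun (Subsingleton.elim (algebraMap ℚ L)
      ((algebraMap K L).comp (algebraMap ℚ K))) x))
  exact ⟨AlgEquiv.liftNormal s L, fun x => AlgEquiv.liftNormal_commutes s L x⟩

theorem aut_aux_gauss (m : ℕ) : 2 * (∑ a ∈ Finset.Ioc 0 m, a) = m * (m + 1) := by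
  induction m with
  | zero => simp
  | succ n ih =>
    have h : Finset.Ioc 0 (n + 1) = insert (n + 1) (Finset.Ioc 0 n) := by
      ext a
      simp only [Finset.mem_insert, Finset.mem_Ioc]
      omega
    rw [h, Finset.sum_insert (by simp), mul_add, ih]
    ring

/-- L10: the numerical unit. -/
theorem sum_half_ne_zero [Fact p.Prime] (hp : p ≠ 2) :
    ((∑ a ∈ (Finset.Ioo 0 p).filter (fun a => 2 * a < p), a : ℕ) : ZMod p) ≠ 0 := by
  have hpp : p.Prime := Fact.out
  obtain ⟨m, hm⟩ : ∃ m, p = 2 * m + 1 := by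
    rcases hpp.eq_two_or_odd' with h | h
    · exact absurd h hp
    · exact h
  have hfilter : (Finset.Ioo 0 p).filter (fun a => 2 * a < p) = Finset.Ioc 0 m := by
    ext a
    simp only [Finset.mem_filter, Finset.mem_Ioo, Finset.mem_Ioc]
    omega
  rw [hfilter]
  intro h0
  have h8 : ((8 * (∑ a ∈ Finset.Ioc 0 m, a) + 1 : ℕ) : ZMod p) = 0 := by
    have : 8 * (∑ a ∈ Finset.Ioc 0 m, a) + 1 = p * p := by
      have := aut_aux_gauss m
      subst hm
      nlinarith
    rw [this]
    simp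
  rw [Nat.cast_add, Nat.cast_mul, h0] at h8
  simp only [mul_zero, zero_add, Nat.cast_one] at h8
  have : Fact (1 < p) := ⟨hpp.one_lt⟩
  exact one_ne_zero h8

end Fermat.Agent.S14.Endgame.Lemmas
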