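import Fermat.Agent.S14.Defs

/-!
# S14 Endgame: transport of Frobenius elements along automorphisms
-/

set_option autoImplicit false

namespace Fermat.Agent.S14.Endgame.Lemmas

open NumberField
open scoped Pointwise
variable {p : ℕ} {K L : Type} [Field K] [NumberField K] [Field L] [NumberField L] [Algebra K L]

omit [NumberField L] in
theorem frobconj_aux_coe_smul {G : Type*} [Group G] [MulSemiringAction G L] (g : G) (x : 𝓞 L) :
    ((g • x : 𝓞 L) : L) = g • (x : L) := rfl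

theorem frobconj_aux_algebraMap (g : L ≃ₐ[ℚ] L) (s : K ≃ₐ[ℚ] K)
    (hgs : ∀ x : K, g (algebraMap K L x) = algebraMap K L (s x)) (y : 𝓞 K) :
    algebraMap (𝓞 K) (𝓞 L) (s • y) = g • algebraMap (𝓞 K) (𝓞 L) y := by
  apply RingOfIntegers.ext
  rw [frobconj_aux_coe_smul]
  change algebraMap K L (s (y : K)) = g (algebraMap K L (y : K))
  rw [hgs]

theorem frobconj_aux_inv (g : L ≃ₐ[ℚ] L) (s : K ≃ₐ[ℚ] K)
    (hgs : ∀ x : K, g (algebraMap K L x) = algebraMap K L (s x)) (x : K) :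
    g⁻¹ (algebraMap K L x) = algebraMap K L (s⁻¹ x) := by
  have h := hgs (s⁻¹ x)
  have h2 : s (s⁻¹ x) = x := s.apply_symm_apply x
  rw [h2] at h
  rw [← h]
  exact g.symm_apply_apply _

theorem frobconj_aux_liesOver (g : L ≃ₐ[ℚ] L) (s : K ≃ₐ[ℚ] K)
    (hgs : ∀ x : K, g (algebraMap K L x) = algebraMap K L (s x))
    (q : Ideal (𝓞 K)) (Q : Ideal (𝓞 L)) (hQ : Q.LiesOver q) :
    (g • Q).LiesOver (s • q) := by
  refine ⟨?_⟩
  ext y
  rw [Ideal.mem_pointwise_smul_iff_inv_smul_mem, Ideal.under_def, Ideal.mem_comap,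
    Ideal.mem_pointwise_smul_iff_inv_smul_mem,
    ← frobconj_aux_algebraMap g⁻¹ s⁻¹ (frobconj_aux_inv g s hgs), hQ.over, Ideal.under_def,
    Ideal.mem_comap]

/-- L6: transport of Frobenius elements along an automorphism `g` of `L/ℚ` restricting to `s`
on `K`. -/
theorem frob_conj (g : L ≃ₐ[ℚ] L) (s : K ≃ₐ[ℚ] K)
    (hgs : ∀ x : K, g (algebraMap K L x) = algebraMap K L (s x))
    (τ τ' : L ≃ₐ[K] L) (hτ : ∀ x : L, g (τ x) = τ' (g x))
    (q : Ideal (𝓞 K)) (Q : Ideal (𝓞 L)) (hQ : Q.LiesOver q)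
    (hfrob : ∀ x : 𝓞 L, τ • x - x ^ Nat.card (𝓞 K ⧸ q) ∈ Q) :
    (g • Q).LiesOver (s • q) ∧ Nat.card (𝓞 K ⧸ (s • q)) = Nat.card (𝓞 K ⧸ q) ∧
      ∀ x : 𝓞 L, τ' • x - x ^ Nat.card (𝓞 K ⧸ q) ∈ g • Q := by
  refine ⟨frobconj_aux_liesOver g s hgs q Q hQ, ?_, ?_⟩
  · exact (Nat.card_congr (Ideal.quotientEquiv q (s • q) (MulSemiringAction.toRingEquiv _ _ s)
      (Ideal.pointwise_smul_def q)).toEquiv).symm
  · intro x
    rw [Ideal.mem_pointwise_smul_iff_inv_smul_mem, smul_sub, smul_pow']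
    have h : g⁻¹ • (τ' • x) = τ • (g⁻¹ • x) := by
      apply RingOfIntegers.ext
      simp only [frobconj_aux_coe_smul]
      change g⁻¹ (τ' (x : L)) = τ (g⁻¹ (x : L))
      have h1 := hτ (g⁻¹ (x : L))
      have h2 : g (g⁻¹ (x : L)) = (x : L) := g.apply_symm_apply _
      rw [h2] at h1
      rw [← h1]
      exact g.symm_apply_apply _
    rw [h]
    exact hfrob _

/-- L6': every prime of `L` above `s • q` is of the form `g • Q` with `Q` above `q`. -/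
theorem exists_smul_eq_of_liesOver (g : L ≃ₐ[ℚ] L) (s : K ≃ₐ[ℚ] K)
    (hgs : ∀ x : K, g (algebraMap K L x) = algebraMap K L (s x))
    (q : Ideal (𝓞 K)) (Q' : Ideal (𝓞 L)) (hQ' : Q'.IsPrime) (hQ'o : Q'.LiesOver (s • q)) :
    ∃ Q : Ideal (𝓞 L), Q.IsPrime ∧ Q.LiesOver q ∧ g • Q = Q' := by
  refine ⟨g⁻¹ • Q', ?_, ?_, smul_inv_smul g Q'⟩
  · rw [Ideal.pointwise_smul_def]
    exact Ideal.map_isPrime_of_equiv (MulSemiringAction.toRingEquiv _ _ g⁻¹)
  · have h := frobconj_aux_liesOver g⁻¹ s⁻¹ (frobconj_aux_inv g s hgs) (s • q) Q' hQ'o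
    rwa [inv_smul_smul] at h

/-- L15: the image of a nonzero prime under an automorphism is a nonzero prime. -/
theorem isPrime_smul (s : K ≃ₐ[ℚ] K) (q : Ideal (𝓞 K)) (hq : q.IsPrime) (hq0 : q ≠ ⊥) :
    (s • q).IsPrime ∧ s • q ≠ ⊥ := by
  refine ⟨?_, ?_⟩
  · rw [Ideal.pointwise_smul_def]
    exact Ideal.map_isPrime_of_equiv (MulSemiringAction.toRingEquiv _ _ s)
  · intro h
    apply hq0
    have h2 : s⁻¹ • (s • q) = s⁻¹ • (⊥ : Ideal (𝓞 K)) := by rw [h]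
    rwa [inv_smul_smul, Ideal.smul_bot] at h2

end Fermat.Agent.S14.Endgame.Lemmas
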