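import Fermat.Agent.S14.Defs

/-!
# S14 Endgame: existence of the Frobenius exponent function
-/

set_option autoImplicit false

namespace Fermat.Agent.S14.Endgame.Lemmas

open NumberField
open scoped Pointwise
variable {p : ℕ} {K L : Type} [Field K] [NumberField K] [Field L] [NumberField L] [Algebra K L]

/-- For a single nonzero prime `q`, there is an exponent working for all primes above `q`. -/
theorem frobexists_aux_single [Fact p.Prime] [IsGalois K L] (hdeg : Module.finrank K L = p)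
    (σ : L ≃ₐ[K] L) (hσ : σ ≠ 1) (q : Ideal (𝓞 K)) (_hq : q.IsPrime) (hq0 : q ≠ ⊥) :
    ∃ n : ZMod p, ∀ Q : Ideal (𝓞 L), Q.IsPrime → Q.LiesOver q →
        ∀ x : 𝓞 L, (σ ^ n.val) • x - x ^ Nat.card (𝓞 K ⧸ q) ∈ Q := by
  classical
  have hp : p.Prime := Fact.out
  have hcard : Nat.card (L ≃ₐ[K] L) = p := by
    rw [IsGalois.card_aut_eq_finrank, hdeg]
  by_cases hex : ∃ Q₀ : Ideal (𝓞 L), Q₀.IsPrime ∧ Q₀.LiesOver q
  swap
  · exact ⟨0, fun Q hQ hQq => absurd ⟨Q, hQ, hQq⟩ hex⟩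
  obtain ⟨Q₀, hQ₀, hQ₀q⟩ := hex
  have hQ₀ne : Q₀ ≠ ⊥ := by
    rintro rfl
    apply hq0
    rw [hQ₀q.over]
    exact Ideal.under_bot _ _
  have : Finite (𝓞 L ⧸ Q₀) := Ideal.finiteQuotientOfFreeOfNeBot Q₀ hQ₀ne
  obtain ⟨τ, hτ⟩ := IsArithFrobAt.exists_of_isInvariant (𝓞 K) (L ≃ₐ[K] L) Q₀
  -- `τ` is a power of `σ`
  have hmem : τ ∈ Subgroup.zpowers σ := by
    rw [zpowers_eq_top_of_prime_card hcard hσ]
    exact Subgroup.mem_top τ
  have : Finite (L ≃ₐ[K] L) := Nat.finite_of_card_ne_zero (by rw [hcard]; exact hp.ne_zero)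
  rw [← mem_powers_iff_mem_zpowers] at hmem
  obtain ⟨n, rfl⟩ := hmem
  have hσp : σ ^ p = 1 := by
    rw [← hcard]; exact pow_card_eq_one'
  have hpow : σ ^ ((n : ZMod p).val) = σ ^ n := by
    rw [ZMod.val_natCast]
    conv_rhs => rw [← Nat.mod_add_div n p, pow_add, pow_mul, hσp, one_pow, mul_one]
  have : IsCyclic (L ≃ₐ[K] L) := isCyclic_of_prime_card hcard
  refine ⟨(n : ZMod p), fun Q hQ hQq x => ?_⟩
  obtain ⟨g, hg⟩ := Algebra.IsInvariant.exists_smul_of_under_eq (𝓞 K) (𝓞 L) (L ≃ₐ[K] L) Q₀ Q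
    (hQ₀q.over.symm.trans hQq.over)
  have h2 := hτ.conj g
  have hcomm : g * σ ^ n * g⁻¹ = σ ^ n := by
    have hc : IsMulCommutative (L ≃ₐ[K] L) := inferInstance
    have := hc.is_comm.comm g (σ ^ n)
    rw [this, mul_inv_cancel_right]
  rw [hcomm, ← hg] at h2
  have h3 := h2 x
  rw [← hQq.over] at h3
  rw [hpow]
  exact h3

/-- L3: existence of the Frobenius exponent function. -/
theorem exists_frobExp [Fact p.Prime] [IsGalois K L] (hdeg : Module.finrank K L = p)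
    (σ : L ≃ₐ[K] L) (hσ : σ ≠ 1) :
    ∃ e : Ideal (𝓞 K) → ZMod p, ∀ q : Ideal (𝓞 K), q.IsPrime → q ≠ ⊥ →
      ∀ Q : Ideal (𝓞 L), Q.IsPrime → Q.LiesOver q →
        ∀ x : 𝓞 L, (σ ^ (e q).val) • x - x ^ Nat.card (𝓞 K ⧸ q) ∈ Q := by
  classical
  refine ⟨fun q => if h : q.IsPrime ∧ q ≠ ⊥ then
    (frobexists_aux_single hdeg σ hσ q h.1 h.2).choose else 0, fun q hq hq0 => ?_⟩
  have h : q.IsPrime ∧ q ≠ ⊥ := ⟨hq, hq0⟩
  simp only [dif_pos h]
  exact (frobexists_aux_single hdeg σ hσ q h.1 h.2).choose_spec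

end Fermat.Agent.S14.Endgame.Lemmas
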