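import Fermat.Agent.S14.Defs

set_option autoImplicit false

namespace Fermat.Agent.S14.Endgame.Lemmas

open NumberField
open scoped Pointwise
variable {p : ℕ} {K L : Type} [Field K] [NumberField K] [Field L] [NumberField L] [Algebra K L]

omit [NumberField K] [NumberField L] in
/-- The Galois group fixes the image of `𝓞 K` in `𝓞 L`. -/
theorem frobsplit_aux_smul_algebraMap (τ : L ≃ₐ[K] L) (y : 𝓞 K) :
    τ • (algebraMap (𝓞 K) (𝓞 L) y) = algebraMap (𝓞 K) (𝓞 L) y := by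
  apply RingOfIntegers.ext
  show τ ((algebraMap (𝓞 K) (𝓞 L) y : 𝓞 L) : L) = _
  have : ((algebraMap (𝓞 K) (𝓞 L) y : 𝓞 L) : L) = algebraMap K L (y : K) := rfl
  rw [this, τ.commutes]

/-- If every residue class mod `Q` is fixed by the `N`-th power map, with `N` the size of the
residue field below, then every residue class mod `Q` is represented by an element of `𝓞 K`. -/
theorem frobsplit_aux_surj (q : Ideal (𝓞 K)) (hq : q.IsPrime) (hq0 : q ≠ ⊥)
    (Q : Ideal (𝓞 L)) (hQ : Q.IsPrime) (hQq : Q.LiesOver q)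
    (h1 : ∀ x : 𝓞 L, x - x ^ Nat.card (𝓞 K ⧸ q) ∈ Q) (x : 𝓞 L) :
    ∃ y : 𝓞 K, x - algebraMap (𝓞 K) (𝓞 L) y ∈ Q := by
  have hQ0 : Q ≠ ⊥ := by
    rintro rfl
    apply hq0
    rw [hQq.over]
    exact Ideal.under_bot (𝓞 K) (𝓞 L)
  have : Q.IsMaximal := Ring.DimensionLEOne.maximalOfPrime hQ0 hQ
  have : q.IsMaximal := Ring.DimensionLEOne.maximalOfPrime hq0 hq
  let : Field (𝓞 L ⧸ Q) := Ideal.Quotient.field Q
  let : Field (𝓞 K ⧸ q) := Ideal.Quotient.field q
  have : Finite (𝓞 L ⧸ Q) := Ideal.finiteQuotientOfFreeOfNeBot Q hQ0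
  have : Finite (𝓞 K ⧸ q) := Ideal.finiteQuotientOfFreeOfNeBot q hq0
  set N := Nat.card (𝓞 K ⧸ q) with hN
  have hN2 : 1 < N := Finite.one_lt_card
  -- every element of the residue field is a root of `X ^ N - X`
  have hroot : ∀ a : 𝓞 L ⧸ Q, a ^ N = a := by
    intro a
    obtain ⟨x, rfl⟩ := Ideal.Quotient.mk_surjective a
    rw [← map_pow]
    exact ((Ideal.Quotient.mk_eq_mk_iff_sub_mem _ _).2 (h1 x)).symm
  have hcard : Nat.card (𝓞 L ⧸ Q) ≤ N := by
    classical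
    let := Fintype.ofFinite (𝓞 L ⧸ Q)
    have hP : (Polynomial.X ^ N - Polynomial.X : Polynomial (𝓞 L ⧸ Q)) ≠ 0 :=
      FiniteField.X_pow_card_sub_X_ne_zero _ hN2
    have hsub : (Finset.univ : Finset (𝓞 L ⧸ Q)) ⊆
        (Polynomial.X ^ N - Polynomial.X : Polynomial (𝓞 L ⧸ Q)).roots.toFinset := by
      intro a _
      simp [Polynomial.mem_roots hP, hroot a]
    rw [Nat.card_eq_fintype_card, ← Finset.card_univ]
    refine (Finset.card_le_card hsub).trans ?_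
    refine (Multiset.toFinset_card_le _).trans ?_
    refine (Polynomial.card_roots' _).trans ?_
    rw [FiniteField.X_pow_card_sub_X_natDegree_eq _ hN2]
  -- the injection of residue fields is a bijection
  let f : (𝓞 K ⧸ q) →+* (𝓞 L ⧸ Q) :=
    Ideal.quotientMap Q (algebraMap (𝓞 K) (𝓞 L)) (by
      rw [hQq.over])
  have hf : Function.Injective f := f.injective
  have hbij : Function.Bijective f := hf.bijective_of_nat_card_le hcard
  obtain ⟨b, hb⟩ := hbij.2 (Ideal.Quotient.mk Q x)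
  obtain ⟨y, rfl⟩ := Ideal.Quotient.mk_surjective b
  refine ⟨y, ?_⟩
  rw [← Ideal.Quotient.mk_eq_mk_iff_sub_mem, ← hb]
  rfl

/-- L5: trivial Frobenius at an unramified prime means complete splitting. -/
theorem splitsCompletely_of_frob_eq_one [IsGalois K L] (hunr : UnramifiedEverywhere K L)
    (q : Ideal (𝓞 K)) (hq : q.IsPrime) (hq0 : q ≠ ⊥)
    (h1 : ∀ Q : Ideal (𝓞 L), Q.IsPrime → Q.LiesOver q →
      ∀ x : 𝓞 L, x - x ^ Nat.card (𝓞 K ⧸ q) ∈ Q) :
    SplitsCompletely K L q := by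
  intro Q hQ hQq
  have hQ0 : Q ≠ ⊥ := by
    rintro rfl
    apply hq0
    rw [hQq.over]
    exact Ideal.under_bot (𝓞 K) (𝓞 L)
  have hin : Q.inertia (L ≃ₐ[K] L) = ⊥ := hunr Q hQ hQ0
  rw [eq_bot_iff]
  intro τ hτ
  rw [MulAction.mem_stabilizer_iff] at hτ
  rw [Subgroup.mem_bot]
  rw [← Subgroup.mem_bot, ← hin]
  intro x
  obtain ⟨y, hy⟩ := frobsplit_aux_surj q hq hq0 Q hQ hQq (h1 Q hQ hQq) x
  have h2 : τ • (x - algebraMap (𝓞 K) (𝓞 L) y) ∈ Q := by
    have := Ideal.smul_mem_pointwise_smul τ _ Q hy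
    rwa [hτ] at this
  have h3 : τ • x - x = τ • (x - algebraMap (𝓞 K) (𝓞 L) y) - (x - algebraMap (𝓞 K) (𝓞 L) y) := by
    rw [smul_sub, frobsplit_aux_smul_algebraMap]; ring
  rw [h3]
  exact Q.sub_mem h2 hy

end Fermat.Agent.S14.Endgame.Lemmas
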