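import Fermat.Agent.S14.Defs

/-!
# S14 Endgame: uniqueness of the Frobenius exponent and order-`p` group facts
-/

set_option autoImplicit false

namespace Fermat.Agent.S14.Endgame.Lemmas

open NumberField
open scoped Pointwise
variable {p : ℕ} {K L : Type} [Field K] [NumberField K] [Field L] [NumberField L] [Algebra K L]

theorem frobunique_aux_card [Fact p.Prime] [IsGalois K L] (hdeg : Module.finrank K L = p) :
    Nat.card (L ≃ₐ[K] L) = p := by
  rw [IsGalois.card_aut_eq_finrank, hdeg]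

theorem frobunique_aux_orderOf [Fact p.Prime] [IsGalois K L] (hdeg : Module.finrank K L = p)
    (σ : L ≃ₐ[K] L) (hσ : σ ≠ 1) : orderOf σ = p := by
  have h1 : orderOf σ ∣ p := by
    have := orderOf_dvd_natCard σ
    rwa [frobunique_aux_card hdeg] at this
  rcases (Nat.dvd_prime (Fact.out : p.Prime)).1 h1 with h | h
  · exact absurd (orderOf_eq_one_iff.1 h) hσ
  · exact h

/-- L4: uniqueness of the Frobenius exponent at an unramified prime. -/
theorem frobExp_unique [Fact p.Prime] [IsGalois K L] (hdeg : Module.finrank K L = p)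
    (σ : L ≃ₐ[K] L) (Q : Ideal (𝓞 L)) (hQ : Q.IsPrime) (hQ0 : Q ≠ ⊥)
    (hunr : UnramifiedAt K L Q) (n : ℕ) (i j : ZMod p)
    (hi : ∀ x : 𝓞 L, (σ ^ i.val) • x - x ^ n ∈ Q)
    (hj : ∀ x : 𝓞 L, (σ ^ j.val) • x - x ^ n ∈ Q) (hσ : σ ≠ 1) : i = j := by
  have hmem : σ ^ i.val * (σ ^ j.val)⁻¹ ∈ Q.inertia (L ≃ₐ[K] L) := by
    intro y
    have h1 := hi ((σ ^ j.val)⁻¹ • y)
    have h2 := hj ((σ ^ j.val)⁻¹ • y)
    have h3 := Q.sub_mem h1 h2
    rw [smul_inv_smul] at h3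
    rw [mul_smul]
    have h4 : σ ^ i.val • (σ ^ j.val)⁻¹ • y - y =
        σ ^ i.val • (σ ^ j.val)⁻¹ • y - ((σ ^ j.val)⁻¹ • y) ^ n -
          (y - ((σ ^ j.val)⁻¹ • y) ^ n) := by ring
    rw [h4]
    exact h3
  have hunr' : Q.inertia (L ≃ₐ[K] L) = ⊥ := hunr
  rw [hunr', Subgroup.mem_bot, mul_inv_eq_one] at hmem
  rw [pow_eq_pow_iff_modEq, frobunique_aux_orderOf hdeg σ hσ] at hmem
  apply ZMod.val_injective p
  have hp : 0 < p := (Fact.out : p.Prime).pos
  have : NeZero p := ⟨hp.ne'⟩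
  exact Nat.ModEq.eq_of_lt_of_lt hmem (ZMod.val_lt i) (ZMod.val_lt j)

/-- L12: powers of an element of a group of order `p` only depend on the exponent mod `p`. -/
theorem pow_eq_pow_of_natCast_eq [Fact p.Prime] [IsGalois K L] (hdeg : Module.finrank K L = p)
    (σ : L ≃ₐ[K] L) (m n : ℕ) (h : (m : ZMod p) = (n : ZMod p)) : σ ^ m = σ ^ n := by
  rw [ZMod.natCast_eq_natCast_iff] at h
  rw [pow_eq_pow_iff_modEq]
  exact h.of_dvd (by
    have := orderOf_dvd_natCard σ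
    rwa [frobunique_aux_card hdeg] at this)

/-- L13: a group of order `p ≥ 2` has a nontrivial element. -/
theorem exists_ne_one [Fact p.Prime] [IsGalois K L] (hdeg : Module.finrank K L = p) :
    ∃ σ : L ≃ₐ[K] L, σ ≠ 1 := by
  by_contra hcon
  replace hcon : ∀ σ : L ≃ₐ[K] L, σ = 1 := fun σ => by
    by_contra h
    exact hcon ⟨σ, h⟩
  have hsub : Subsingleton (L ≃ₐ[K] L) := ⟨fun a b => by rw [hcon a, hcon b]⟩
  have h1 : Nat.card (L ≃ₐ[K] L) = 1 := Nat.card_unique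
  rw [frobunique_aux_card hdeg] at h1
  exact (Fact.out : p.Prime).one_lt.ne' h1

end Fermat.Agent.S14.Endgame.Lemmas
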