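import Fermat.Agent.S14.Defs

/-!
# S14 Endgame: elementary ideal lemmas (L11, L14, L16)
-/

set_option autoImplicit false

namespace Fermat.Agent.S14.Endgame.Lemmas

open NumberField
open scoped Pointwise

variable {p : ℕ} {K L : Type} [Field K] [NumberField K] [Field L] [NumberField L] [Algebra K L]

/-- L11: evaluation of `principalSum` on a product of distinct primes. -/
theorem principalSum_of_span_eq_prod {A : Type*} [AddCommMonoid A] (e : Ideal (𝓞 K) → A)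
    (y : 𝓞 K) {ι : Type*} (s : Finset ι) (P : ι → Ideal (𝓞 K))
    (hP : ∀ i ∈ s, (P i).IsPrime ∧ P i ≠ ⊥) (h : Ideal.span {y} = ∏ i ∈ s, P i) :
    principalSum K e y = ∑ i ∈ s, e (P i) := by
  have hfac : UniqueFactorizationMonoid.normalizedFactors (∏ i ∈ s, P i) = s.val.map P := by
    have : (∏ i ∈ s, P i) = (s.val.map P).prod := rfl
    rw [this]
    refine UniqueFactorizationMonoid.normalizedFactors_prod_of_prime ?_
    intro q hq
    obtain ⟨i, hi, rfl⟩ := Multiset.mem_map.mp hq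
    exact Ideal.prime_of_isPrime (hP i hi).2 (hP i hi).1
  unfold principalSum
  rw [h, hfac, Multiset.map_map]
  rfl

/-- L14: a prime of norm `ℓ ≠ p` (`ℓ` prime) does not contain `p`. -/
theorem natCast_notMem_of_absNorm [Fact p.Prime] (q : Ideal (𝓞 K)) (hq : q.IsPrime)
    (hdeg : (Ideal.absNorm q).Prime) (hne : Ideal.absNorm q ≠ p) : ((p : ℕ) : 𝓞 K) ∉ q := by
  intro hp
  have hcop : Nat.Coprime p (Ideal.absNorm q) :=
    (Nat.coprime_primes (Fact.out : p.Prime) hdeg).mpr (Ne.symm hne)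
  have hN : ((Ideal.absNorm q : ℕ) : 𝓞 K) ∈ q := Ideal.absNorm_mem q
  have h1 : ((1 : ℤ) : 𝓞 K) ∈ q := by
    have hb := Nat.gcd_eq_gcd_ab p (Ideal.absNorm q)
    rw [hcop] at hb
    have : ((1 : ℤ) : 𝓞 K) = ((p : ℕ) : 𝓞 K) * ((Nat.gcdA p (Ideal.absNorm q) : ℤ) : 𝓞 K)
        + ((Ideal.absNorm q : ℕ) : 𝓞 K) * ((Nat.gcdB p (Ideal.absNorm q) : ℤ) : 𝓞 K) := by
      have := congrArg (fun z : ℤ => (z : 𝓞 K)) hb
      simpa using this
    rw [this]
    exact q.add_mem (q.mul_mem_right _ hp) (q.mul_mem_right _ hN)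
  apply hq.ne_top
  rw [Ideal.eq_top_iff_one]
  simpa using h1

/-- L16: existence of a prime of `L` above a nonzero prime of `K`. -/
theorem exists_prime_liesOver (q : Ideal (𝓞 K)) (hq : q.IsPrime) (hq0 : q ≠ ⊥) :
    ∃ Q : Ideal (𝓞 L), Q.IsPrime ∧ Q ≠ ⊥ ∧ Q.LiesOver q := by
  have : q.IsMaximal := hq.isMaximal hq0
  obtain ⟨Q, hQ, hQo⟩ := Ideal.exists_maximal_ideal_liesOver_of_isIntegral (S := 𝓞 L) q
  refine ⟨Q, hQ.isPrime, ?_, hQo⟩
  rintro rfl
  apply hq0
  rw [hQo.over, Ideal.under_bot]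

end Fermat.Agent.S14.Endgame.Lemmas
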