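import Fermat.Agent.S14.Endgame.Twisted
import Fermat.Agent.S14.Endgame.FrobExists
import Fermat.Agent.S14.Endgame.FrobUnique
import Fermat.Agent.S14.Endgame.FrobSplit
import Fermat.Agent.S14.Endgame.FrobConj
import Fermat.Agent.S14.Endgame.Aut
import Fermat.Agent.S14.Endgame.Ideals
import Fermat.Agent.S14.Iface.Reciprocity
import Fermat.Agent.S14.Iface.Stickelberger
import Fermat.Agent.S14.Iface.Density

/-!
# S14 Endgame: the arithmetic core from reciprocity + Stickelberger + density (owner helper15)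
-/

set_option autoImplicit false

namespace Fermat.Agent.S14.Endgame

open NumberField Lemmas
open scoped Pointwise

theorem arithmeticCore {p : ℕ} [Fact p.Prime] (h3 : 3 ≤ p) : ArithmeticCore p := by
  intro K L _ _ _ _ _ _ _ _ hT
  have hpp : p.Prime := Fact.out
  have hp2 : p ≠ 2 := by omega
  obtain ⟨σ, hσ⟩ := exists_ne_one (p := p) (K := K) (L := L) hT.finrank_eq
  have hunr := unramifiedEverywhere_of_twistedExt hT
  obtain ⟨e, he⟩ := exists_frobExp hT.finrank_eq σ hσ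
  have hfr : 1 < Module.finrank K L := by rw [hT.finrank_eq]; omega
  obtain ⟨q, hq, hqdeg, hqS, hqns⟩ := exists_prime_not_splitsCompletely K L hfr {p}
  have hq0 : q ≠ ⊥ := by
    rintro rfl
    simp at hqdeg
    exact Nat.not_prime_zero hqdeg
  have hqp' : Ideal.absNorm q ≠ p := by simpa using hqS
  have heq : e q ≠ 0 := by
    intro h0
    apply hqns
    apply splitsCompletely_of_frob_eq_one hunr q hq hq0
    intro Q hQ hQo x
    have := he q hq hq0 Q hQ hQo x
    rw [h0] at this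
    simpa using this
  have hpq : ((p : ℕ) : 𝓞 K) ∉ q := natCast_notMem_of_absNorm q hq hqdeg hqp'
  haveI : NeZero p := ⟨hpp.ne_zero⟩
  obtain ⟨ζ, hζ⟩ := IsCyclotomicExtension.exists_isPrimitiveRoot ℚ K (Set.mem_singleton p)
    (NeZero.ne p)
  obtain ⟨s, hs⟩ := exists_aut_pow ζ hζ
  obtain ⟨J, hJ⟩ := stickelberger hp2 K ζ hζ s hs q hq hpq hqdeg
  have hprimes : ∀ a ∈ (Finset.Ioo 0 p).filter (fun a => 2 * a < p),
      ((s a)⁻¹ • q : Ideal (𝓞 K)).IsPrime ∧ ((s a)⁻¹ • q : Ideal (𝓞 K)) ≠ ⊥ :=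
    fun a _ => isPrime_smul _ q hq hq0
  have hJ0 : J ≠ 0 := by
    rintro rfl
    have h1 : (∏ a ∈ (Finset.Ioo 0 p).filter (fun a => 2 * a < p),
        ((s a)⁻¹ • q : Ideal (𝓞 K))) = ⊥ := by
      rw [← hJ]; simp
    rw [← Ideal.zero_eq_bot, Finset.prod_eq_zero_iff] at h1
    obtain ⟨a, ha, ha0⟩ := h1
    exact (hprimes a ha).2 ha0
  have hrec := reciprocity hp2 K L hT.finrank_eq hunr
    (fun q hq hp => splitsCompletely_of_twistedExt hT q hq hp) σ hσ e he J hJ0
  rw [principalSum_of_span_eq_prod e J _ (fun a => ((s a)⁻¹ • q : Ideal (𝓞 K))) hprimes hJ]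
    at hrec
  have key : ∀ a ∈ (Finset.Ioo 0 p).filter (fun a => 2 * a < p),
      e ((s a)⁻¹ • q) = (a : ZMod p) * e q := by
    intro a ha
    have ha' : 0 < a ∧ a < p := by
      have := (Finset.mem_filter.mp ha).1
      exact Finset.mem_Ioo.mp this
    obtain ⟨g, hg⟩ := exists_extension (K := K) (L := L) ((s a)⁻¹)
    -- the twist: g ∘ τ = τ ^ a ∘ g
    have hgsymm : ∀ y : K, g.symm (algebraMap K L y) = algebraMap K L (s a y) := by
      intro y
      apply g.injective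
      rw [AlgEquiv.apply_symm_apply, hg]
      simp
    have htw : ∀ (τ : L ≃ₐ[K] L) (x : L), g (τ x) = (τ ^ a) (g x) := by
      intro τ x
      have h1 := hT.twist ζ hζ g.symm a (by rw [hgsymm, hs a ha'.1 ha'.2, map_pow]) τ x
      have h2 := congrArg g h1
      rw [AlgEquiv.apply_symm_apply] at h2
      simpa using h2.symm
    set q' : Ideal (𝓞 K) := (s a)⁻¹ • q with hq'def
    obtain ⟨hq'prime, hq'0⟩ := hprimes a ha
    obtain ⟨Q', hQ'prime, hQ'0, hQ'o⟩ := exists_prime_liesOver (L := L) q' hq'prime hq'0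
    obtain ⟨Q, hQprime, hQo, hQQ'⟩ := exists_smul_eq_of_liesOver g ((s a)⁻¹) hg q Q' hQ'prime hQ'o
    have hfrobQ := he q hq hq0 Q hQprime hQo
    obtain ⟨_, hcard, hfrobQ'⟩ := frob_conj g ((s a)⁻¹) hg (σ ^ (e q).val) ((σ ^ (e q).val) ^ a)
      (htw _) q Q hQo hfrobQ
    rw [hQQ'] at hfrobQ'
    have hfrob2 := he q' hq'prime hq'0 Q' hQ'prime hQ'o
    rw [hcard] at hfrob2
    refine frobExp_unique hT.finrank_eq σ Q' hQ'prime hQ'0 (hunr Q' hQ'prime hQ'0)
      (Nat.card (𝓞 K ⧸ q)) _ _ hfrob2 ?_ hσ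
    have hpow : σ ^ ((a : ZMod p) * e q).val = (σ ^ (e q).val) ^ a := by
      rw [← pow_mul]
      apply pow_eq_pow_of_natCast_eq hT.finrank_eq
      simp [mul_comm]
    rw [hpow]
    exact hfrobQ'
  rw [Finset.sum_congr rfl key, ← Finset.sum_mul] at hrec
  have hsum := sum_half_ne_zero (p := p) hp2
  rcases mul_eq_zero.mp hrec with h | h
  · apply hsum
    rw [← h]
    push_cast
    rfl
  · exact heq h

end Fermat.Agent.S14.Endgame
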