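import Fermat.Agent.S14.Defs

/-!
# S14 Endgame: consequences of `TwistedExt` (L1, L2)
-/

set_option autoImplicit false

namespace Fermat.Agent.S14.Endgame.Lemmas

open NumberField
open scoped Pointwise
variable {p : ℕ} {K L : Type} [Field K] [NumberField K] [Field L] [NumberField L] [Algebra K L]

/-- L1 -/
theorem unramifiedEverywhere_of_twistedExt (h : TwistedExt p K L) : UnramifiedEverywhere K L := by
  intro Q hQ _
  unfold UnramifiedAt
  rw [eq_bot_iff]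
  intro τ hτ
  have hτ' : ∀ x : 𝓞 L, τ • x - x ∈ Q := hτ
  rw [Subgroup.mem_bot]
  by_cases hp : ((p : ℕ) : 𝓞 L) ∈ Q
  · refine h.split Q hQ hp τ fun x hx => ⟨τ • x, ?_, rfl⟩
    have := Q.add_mem (hτ' x) hx
    simpa using this
  · exact h.unramified Q hQ hp τ fun x => ⟨τ • x - x, hτ' x, rfl⟩

/-- L2 -/
theorem splitsCompletely_of_twistedExt (h : TwistedExt p K L) (q : Ideal (𝓞 K)) (hq : q.IsPrime)
    (hp : ((p : ℕ) : 𝓞 K) ∈ q) : SplitsCompletely K L q := by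
  intro Q hQ hQq
  have hpQ : ((p : ℕ) : 𝓞 L) ∈ Q := by
    have h1 : ((p : ℕ) : 𝓞 K) ∈ Q.under (𝓞 K) := hQq.over ▸ hp
    rw [Ideal.under_def, Ideal.mem_comap] at h1
    simpa using h1
  rw [eq_bot_iff]
  intro τ hτ
  rw [MulAction.mem_stabilizer_iff] at hτ
  rw [Subgroup.mem_bot]
  refine h.split Q hQ hpQ τ fun x hx => ⟨τ • x, ?_, rfl⟩
  have : τ • x ∈ τ • Q := (Ideal.smul_mem_pointwise_smul_iff).mpr hx
  rwa [hτ] at this

end Fermat.Agent.S14.Endgame.Lemmas
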